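/-
S25 package ATLAS, sub-package DIV -- FROZEN vocabulary (captain helper6325).
Definitions only; no sorry.  NEVER edit (push an ISSUE note instead).

The divisor charts: index `(b, h)`, `b : Fin g → A₁`, `h ∈ S_b = HilbChart k A₁ b`; a pair
`(M, s)` (line bundle over `𝒞.chart R`, global section) lies in the chart iff
* `IsCan M s`     : `H¹(M) = 0`, `H⁰(M) = R·s` free, `s` generates the `ε`-fibre (C1), and
                    `M₂ = B₂ s₂ + g M₂` (C2: the divisor of `s` does not meet `V(g) = C ∖ U₁`);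
* `free`          : the classes of `1 ⊗ b j` are an `R`-basis of `B₁ ⧸ zeroIdeal s₁` (C3);
* `unit`          : `h` is a unit at the corresponding point of `S_b` (C4).
Uses helper2890's `zeroIdeal` (`ATLAS/ZeroIdeal2890.lean`) and helper2928's Hilbert chart
(`ATLAS/HilbChart2928.lean`), both verbatim.
-/
import Fermat.Agent.S25.ATLAS.Defs
import Fermat.Agent.S25.ATLAS.ZeroIdeal2890
import Fermat.Agent.S25.ATLAS.HilbChart2928

set_option autoImplicit false

universe u

namespace Fermat.Agent.S25.ATLAS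

open scoped TensorProduct

open GluedModule H2890 HC2928

variable {k : Type u} [Field k] (𝒞 : CurveData k)

/-- A global section which is a non-zero-divisor on both charts. -/
def IsRegSec {R : Type u} [CommRing R] {𝔹 : TwoChart R} (N : GluedModule 𝔹)
    (s : N.N₁ × N.N₂) : Prop :=
  (Function.Injective fun b : 𝔹.B₁ => b • s.1) ∧ (Function.Injective fun b : 𝔹.B₂ => b • s.2)

/-- The zero ideal of a section on the first chart, as an ideal of `R ⊗[k] A₁`. -/
noncomputable def zeroIdeal₁ {R : Type u} [CommRing R] [Algebra k R] (M : GluedModule (𝒞.chart R))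
    (s : M.N₁ × M.N₂) : Ideal (R ⊗[k] 𝒞.A₁) :=
  zeroIdeal (𝒞.chart R).B₁ s.1

/-- The zero ideal of a section on the second chart, as an ideal of `R ⊗[k] A₂`. -/
noncomputable def zeroIdeal₂ {R : Type u} [CommRing R] [Algebra k R] (M : GluedModule (𝒞.chart R))
    (s : M.N₁ × M.N₂) : Ideal (R ⊗[k] 𝒞.A₂) :=
  zeroIdeal (𝒞.chart R).B₂ s.2

/-- Conditions C1 and C2 on a pair `(M, s)`: `s` is "the canonical section of `O(D)`",
`D ⊆ U₁ ∖ ε`, `H¹(O(D)) = 0`, `H⁰(O(D)) = R·1_D`. -/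
structure IsCan {R : Type u} [CommRing R] [Algebra k R] (M : GluedModule (𝒞.chart R))
    (s : M.N₁ × M.N₂) : Prop where
  mem : s ∈ M.H0
  h1 : Subsingleton M.H1
  /-- `H⁰(M)` is free of rank one on `s`. -/
  gen : ∀ t : M.N₁ × M.N₂, t ∈ M.H0 → ∃! r : R, t = r • s
  /-- `s` generates the `ε`-fibre. -/
  eps : Submodule.span (𝒞.chart R).B₁ {s.1} ⊔
      (RingHom.ker (𝒞.epsR R : (𝒞.chart R).B₁ →+* R)) • (⊤ : Submodule (𝒞.chart R).B₁ M.N₁) = ⊤
  /-- `s` generates `M₂` modulo `g`. -/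
  away : Submodule.span (𝒞.chart R).B₂ {s.2} ⊔
      (Ideal.span {(𝒞.chart R).g}) • (⊤ : Submodule (𝒞.chart R).B₂ M.N₂) = ⊤

/-- `(M, s)` lies in the divisor chart `(b, h)`. -/
structure InDivChart {g : ℕ} (b : Fin g → 𝒞.A₁) (h : HilbChart k 𝒞.A₁ b)
    {R : Type u} [CommRing R] [Algebra k R] (M : GluedModule (𝒞.chart R))
    (s : M.N₁ × M.N₂) : Prop where
  can : IsCan 𝒞 M s
  free : IsFreeOn b (zeroIdeal₁ 𝒞 M s)
  unit : IsUnit ((idealEquiv (b := b) (R := R)).symm ⟨zeroIdeal₁ 𝒞 M s, free⟩ h)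

/-- The point of the Hilbert chart defined by a pair in the chart. -/
noncomputable def InDivChart.point {g : ℕ} {b : Fin g → 𝒞.A₁} {h : HilbChart k 𝒞.A₁ b}
    {R : Type u} [CommRing R] [Algebra k R] {M : GluedModule (𝒞.chart R)}
    {s : M.N₁ × M.N₂} (H : InDivChart 𝒞 b h M s) : HilbChart k 𝒞.A₁ b →ₐ[k] R :=
  (idealEquiv (b := b) (R := R)).symm ⟨zeroIdeal₁ 𝒞 M s, H.free⟩

/-- A universal pair over `S_b[1/h]`: a line bundle with a section in the chart `(b, h)` whose
zero ideal on the first chart is the universal ideal.  (Route: `Q = O(D_univ)`, `σ = 1_D`.) -/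
structure UnivPair {g : ℕ} (b : Fin g → 𝒞.A₁) (h : HilbChart k 𝒞.A₁ b) where
  Q : GluedModule (𝒞.chart (Localization.Away h))
  lineBundle : Q.IsLineBundle
  σ : Q.N₁ × Q.N₂
  inDiv : InDivChart 𝒞 b h Q σ
  zero₁ : zeroIdeal₁ 𝒞 Q σ = (univIdeal k 𝒞.A₁ b).map
    (Algebra.TensorProduct.map
      (IsScalarTower.toAlgHom k (HilbChart k 𝒞.A₁ b) (Localization.Away h)) (AlgHom.id k 𝒞.A₁))

/-- The index set of the divisor charts. -/
def DivIndex : Type u :=
  Σ b : Fin (genus 𝒞) → 𝒞.A₁, {h : HilbChart k 𝒞.A₁ b // Nonempty (UnivPair 𝒞 b h)}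

end Fermat.Agent.S25.ATLAS
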