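/-
S25 package ATLAS/DIV, leaf BCback.  Statement FROZEN (captain helper6325); replace the `sorry`
(helper files under `Fermat/Agent/S25/ATLAS/DIV/BCback/`, namespace `Fermat.Agent.S25.ATLAS.DIV.BCback`).
(A2) Recognition: a line bundle with a section in the chart (b, h) is a base change of the
universal pair.  Proof: ψ := the extension of `hs.point` to `S_b[1/h]` (C4); s is regular (NZD lemma,
from `eps`); zeroIdeal₁ s = I_univ.map by the Hilbert chart; zeroIdeal₂ is determined by zeroIdeal₁
under `away` (B₂/𝔞₂ → B₁₂/𝔞₁₂ is injective when g is a unit mod 𝔞₂); then helper2930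
`DivBC.isBC_of_zeroIdeal_map`.
-/
import Fermat.Agent.S25.ATLAS.DIV.Defs
import Fermat.Agent.S25.BC
import Fermat.Agent.S25.ATLAS.DIV.BCback.Main

set_option autoImplicit false

universe u

namespace Fermat.Agent.S25.ATLAS

open scoped TensorProduct

open GluedModule H2890 HC2928

variable {k : Type u} [Field k] (𝒞 : CurveData k) [IsAlgClosed k]

theorem exists_isBC_of_inDivChart {g : ℕ} {b : Fin g → 𝒞.A₁} {h : HilbChart k 𝒞.A₁ b}
    (U : UnivPair 𝒞 b h) {R : Type u} [CommRing R] [Algebra k R] (M : GluedModule (𝒞.chart R))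
    (hM : M.IsLineBundle) (s : M.N₁ × M.N₂) (hs : InDivChart 𝒞 b h M s) :
    ∃ ψ : Localization.Away h →ₐ[k] R, IsBC (𝒞.chartHom ψ) U.Q M :=
  DIV.BCback.exists_isBC 𝒞 U M hM s hs

end Fermat.Agent.S25.ATLAS
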