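/-
S25 package ATLAS/DIV, leaf BCfwd.  Statement FROZEN (captain helper6325); proof by helper7651
(helper files under `Fermat/Agent/S25/ATLAS/DIV/BCfwd/`, namespace `Fermat.Agent.S25.ATLAS.DIV.BCfwd`).
(A1) The chart conditions are stable under base change, and the point is natural.
Proof: H¹ is a cokernel (commutes with base change); (CB1) H⁰ commutes with base change when H¹ = 0
(N₁₂ is R-projective, so 0 → H⁰ → N₁ × N₂ → N₁₂ → 0 splits); eps/away are surjectivity statements;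
zero ideals commute with base change (helper2930 DivBC.zeroIdeal_j₁); `Datum.map_ideal`.
-/
import Fermat.Agent.S25.ATLAS.DIV.Defs
import Fermat.Agent.S25.BC
import Fermat.Agent.S25.ATLAS.H2930.DivBC
import Fermat.Agent.S25.ATLAS.DIV.BCfwd.Can

set_option autoImplicit false

universe u

namespace Fermat.Agent.S25.ATLAS

open scoped TensorProduct

open GluedModule H2890 HC2928

variable {k : Type u} [Field k] (𝒞 : CurveData k) [IsAlgClosed k]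

theorem exists_inDivChart_of_isBC {g : ℕ} {b : Fin g → 𝒞.A₁} {h : HilbChart k 𝒞.A₁ b}
    {S : Type u} [CommRing S] [Algebra k S] (Q : GluedModule (𝒞.chart S)) (hQ : Q.IsLineBundle)
    (σ : Q.N₁ × Q.N₂) (hσ : InDivChart 𝒞 b h Q σ)
    {R : Type u} [CommRing R] [Algebra k R] (ψ : S →ₐ[k] R) (M : GluedModule (𝒞.chart R))
    (hM : IsBC (𝒞.chartHom ψ) Q M) :
    ∃ (s : M.N₁ × M.N₂) (hs : InDivChart 𝒞 b h M s), hs.point = ψ.comp hσ.point := by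
  obtain ⟨D⟩ := hM
  have hcan : IsCan 𝒞 M (D.j₁ σ.1, D.j₂ σ.2) := DIV.BCfwd.isCan_of_baseChangeData hQ hσ.can D
  have hz : zeroIdeal₁ 𝒞 M (D.j₁ σ.1, D.j₂ σ.2) =
      (zeroIdeal₁ 𝒞 Q σ).map (Algebra.TensorProduct.map ψ (AlgHom.id k 𝒞.A₁)) := by
    have := hQ.inv₁
    exact H2930.zeroIdeal_j₁ D σ.1
  set d₀ : Datum k 𝒞.A₁ b S := Datum.ofIdeal (zeroIdeal₁ 𝒞 Q σ) hσ.free with hd₀
  have hd₀I : d₀.ideal = zeroIdeal₁ 𝒞 Q σ := Datum.ideal_ofIdeal _ _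
  have hmapI : (d₀.map ψ).ideal = zeroIdeal₁ 𝒞 M (D.j₁ σ.1, D.j₂ σ.2) := by
    rw [Datum.map_ideal, hd₀I, hz]
  have hfree : IsFreeOn b (zeroIdeal₁ 𝒞 M (D.j₁ σ.1, D.j₂ σ.2)) :=
    hmapI ▸ (d₀.map ψ).isFreeOn
  have hpt : (idealEquiv (b := b) (R := R)).symm
      ⟨zeroIdeal₁ 𝒞 M (D.j₁ σ.1, D.j₂ σ.2), hfree⟩ =
      ψ.comp ((idealEquiv (b := b) (R := S)).symm ⟨zeroIdeal₁ 𝒞 Q σ, hσ.free⟩) := by
    change (Datum.ofIdeal _ hfree).toHom = ψ.comp d₀.toHom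
    rw [← Datum.toHom_map]
    congr 1
    apply Datum.ideal_injective
    rw [Datum.ideal_ofIdeal, hmapI]
  refine ⟨(D.j₁ σ.1, D.j₂ σ.2), ⟨hcan, hfree, ?_⟩, hpt⟩
  rw [hpt]
  exact hσ.unit.map ψ

end Fermat.Agent.S25.ATLAS
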