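/-
S25 package ATLAS/DIV, leaf Chi.  Statement FROZEN (captain helper6325); PROVED (helper8810),
helper file `Fermat/Agent/S25/ATLAS/DIV/Chi/Unit.lean`, namespace `Fermat.Agent.S25.ATLAS.DIV.Chi`.
(E) χ(M) = 1 = χ(O) + g for a canonical pair over an algebraically closed field:
h¹(M) = 0, h⁰(M) = 1 (gen), h⁰(O_κ) = 1 (𝒞.glob + flat base change), h¹(O_κ) = genus 𝒞 (H¹ commutes
with base change k → κ).
-/
import Fermat.Agent.S25.ATLAS.DIV.Defs
import Fermat.Agent.S25.BC
import Fermat.Agent.S25.ATLAS.DIV.Chi.Unit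

set_option autoImplicit false

universe u

namespace Fermat.Agent.S25.ATLAS

open scoped TensorProduct

open GluedModule H2890 HC2928

variable {k : Type u} [Field k] (𝒞 : CurveData k) [IsAlgClosed k]

theorem chi_of_isCan (κ : Type u) [Field κ] [IsAlgClosed κ] [Algebra k κ]
    (M : GluedModule (𝒞.chart κ)) (hM : M.IsLineBundle) (s : M.N₁ × M.N₂) (hs : IsCan 𝒞 M s) :
    GluedModule.chi M = GluedModule.chi (GluedModule.unit (𝒞.chart κ)) + genus 𝒞 := by
  have hs0 : s ≠ 0 := by
    intro h0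
    obtain ⟨r, -, hr⟩ := hs.gen 0 (Submodule.zero_mem _)
    have h1 : (0 : κ) = r := hr 0 (by simp [h0])
    have h2 : (1 : κ) = r := hr 1 (by simp [h0])
    exact zero_ne_one (h1.trans h2.symm)
  have hspan : M.H0 = Submodule.span κ {s} := by
    apply le_antisymm
    · intro t ht
      obtain ⟨r, hr, -⟩ := hs.gen t ht
      rw [Submodule.mem_span_singleton]
      exact ⟨r, hr.symm⟩
    · rw [Submodule.span_le, Set.singleton_subset_iff]
      exact hs.mem
  have h0 : Module.finrank κ M.H0 = 1 := by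
    rw [hspan]
    exact finrank_span_singleton hs0
  exact DIV.Chi.chi_eq_chi_unit_add_genus 𝒞 κ M hs.h1 h0

end Fermat.Agent.S25.ATLAS
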