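/-
S25 package ATLAS/DIV, leaf FinType.  Statement FROZEN (captain helper6325).
DONE: proved in `ATLAS/DIV/FinType/Basic.lean` (no sorry).
(T) `A₁` is a finite type k-algebra (finite over k[f], `𝒞.fin₁`), hence so is the
Hilbert chart (helper2928 `HC2928.finiteType`) and its localisation at h.
-/
import Fermat.Agent.S25.ATLAS.DIV.Defs
import Fermat.Agent.S25.BC
import Fermat.Agent.S25.ATLAS.DIV.FinType.Basic

set_option autoImplicit false

universe u

namespace Fermat.Agent.S25.ATLAS

open scoped TensorProduct

open GluedModule H2890 HC2928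

variable {k : Type u} [Field k] (𝒞 : CurveData k) [IsAlgClosed k]

theorem finiteType_away {g : ℕ} (b : Fin g → 𝒞.A₁) (h : HilbChart k 𝒞.A₁ b) :
    Algebra.FiniteType k (Localization.Away h) :=
  DIV.FinType.finiteType_away 𝒞 b h

end Fermat.Agent.S25.ATLAS
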