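/-
S25 package ATLAS/DIV, leaf GoodMem.  Statement FROZEN (captain helper6325); replace the `sorry`
(helper files under `Fermat/Agent/S25/ATLAS/DIV/GoodMem/`, namespace `Fermat.Agent.S25.ATLAS.DIV.GoodMem`).
(F) Over an algebraically closed field a good rigid line bundle lies in some chart:
(F1) Good ⇒ IsCan M s (s the section of `Good.sec`); (F2) (Flat) dim (κ⊗A₁)/zeroIdeal s₁ = genus 𝒞
and 1 ⊗ A₁ spans ⇒ some b : Fin g → A₁ is a basis; (G) existence of a universal pair near the point: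
O(D_univ) over S_b ((Inv): univIdeal invertible; (Closed): 𝔞₂ := r₂⁻¹(I·B₁₂), 𝔞₂ + (g) = ⊤, invertible;
dual of the ideal datum with section 1_D), its fibre at the point is ≅ M (helper2930
`exists_iso_of_zeroIdeal_eq`), the conditions of `IsCan` are open ⇒ hold over S_b[1/h], h(x) ≠ 0.
-/
import Fermat.Agent.S25.ATLAS.DIV.Defs
import Fermat.Agent.S25.BC
import Fermat.Agent.S25.ATLAS.DIV.GoodMem.Plan

set_option autoImplicit false

universe u

namespace Fermat.Agent.S25.ATLAS

open scoped TensorProduct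

open GluedModule H2890 HC2928

variable {k : Type u} [Field k] (𝒞 : CurveData k) [IsAlgClosed k]

theorem exists_univPair_of_good (κ : Type u) [Field κ] [IsAlgClosed κ] [Algebra k κ]
    (M : GluedModule (𝒞.chart κ)) (hM : M.IsLineBundle) (hr : Rigid 𝒞 M) (hg : Good 𝒞 M) :
    ∃ (b : Fin (genus 𝒞) → 𝒞.A₁) (h : HilbChart k 𝒞.A₁ b) (_ : UnivPair 𝒞 b h)
      (s : M.N₁ × M.N₂), InDivChart 𝒞 b h M s :=
  DIV.GoodMem.exists_univPair_of_good 𝒞 κ M hM hr hg

end Fermat.Agent.S25.ATLAS
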