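/-
S25 package ATLAS/DIV, leaf LG.  Statement FROZEN (captain helper6325); PROVED by helper4190
(helper files under `Fermat/Agent/S25/ATLAS/DIV/LG/`, namespace `Fermat.Agent.S25.ATLAS.DIV.LG`).
(C) Local-to-global: the chart conditions are fibrewise.  Proof: (F) H¹ f.g. + Nakayama;
(CB1) H⁰ f.g. projective commuting with base change; ev_ε : H⁰(M) → ε-fibre ≅ R bijective on all
geometric fibres ⇒ bijective ⇒ s := ev_ε⁻¹(1); away: f.g. R-module M₂/(B₂s₂ + gM₂) with zero
fibres; (Flat): B₁/zeroIdeal s₁ f.g. projective over R, the map R^g → B₁/zeroIdeal s₁ given by b is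
bijective on geometric fibres ⇒ bijective; C4: h(x_s) is a unit iff nonzero at every point.
-/
import Fermat.Agent.S25.ATLAS.DIV.Defs
import Fermat.Agent.S25.BC
import Fermat.Agent.S25.ATLAS.DIV.LG.Main

set_option autoImplicit false

universe u

namespace Fermat.Agent.S25.ATLAS

open scoped TensorProduct

open GluedModule H2890 HC2928

variable {k : Type u} [Field k] (𝒞 : CurveData k) [IsAlgClosed k]

theorem exists_inDivChart_of_fibres {g : ℕ} (b : Fin g → 𝒞.A₁) (h : HilbChart k 𝒞.A₁ b)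
    {R : Type u} [CommRing R] [Algebra k R] (M : GluedModule (𝒞.chart R))
    (hM : M.IsLineBundle) (hr : Rigid 𝒞 M)
    (H : ∀ (κ : Type u) [Field κ] [IsAlgClosed κ] [Algebra k κ] (φ : R →ₐ[k] κ)
      (M' : GluedModule (𝒞.chart κ)), IsBC (𝒞.chartHom φ) M M' →
        ∃ s' : M'.N₁ × M'.N₂, InDivChart 𝒞 b h M' s') :
    ∃ s : M.N₁ × M.N₂, InDivChart 𝒞 b h M s :=
  DIV.LG.exists_inDivChart_of_fibres' 𝒞 b h M hM hr H

end Fermat.Agent.S25.ATLAS
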