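/-
S25 package ATLAS/DIV, leaf Spread.  Statement FROZEN (captain helper6325); replace the `sorry`
(helper files under `Fermat/Agent/S25/ATLAS/DIV/Spread/`, namespace `Fermat.Agent.S25.ATLAS.DIV.Spread`).
(D) Spreading out: the chart conditions are open (staged: C1a H¹ = 0 on D(a₁) by (F);
then H⁰ f.g. projective, ev_ε bijective near the point; then away, free, unit).  Stated for every
base change inverting `a` (no localisation types).
-/
import Fermat.Agent.S25.ATLAS.DIV.Defs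
import Fermat.Agent.S25.BC
import Fermat.Agent.S25.ATLAS.DIV.Spread.Plan

set_option autoImplicit false

universe u

namespace Fermat.Agent.S25.ATLAS

open scoped TensorProduct

open GluedModule H2890 HC2928

variable {k : Type u} [Field k] (𝒞 : CurveData k) [IsAlgClosed k]

theorem spread_inDivChart {g : ℕ} (b : Fin g → 𝒞.A₁) (h : HilbChart k 𝒞.A₁ b)
    {R : Type u} [CommRing R] [Algebra k R] (M : GluedModule (𝒞.chart R))
    (hM : M.IsLineBundle) (hr : Rigid 𝒞 M)
    (κ : Type u) [Field κ] [IsAlgClosed κ] [Algebra k κ] (φ₀ : R →ₐ[k] κ)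
    (M₀ : GluedModule (𝒞.chart κ)) (hM₀ : IsBC (𝒞.chartHom φ₀) M M₀)
    (s₀ : M₀.N₁ × M₀.N₂) (hs₀ : InDivChart 𝒞 b h M₀ s₀) :
    ∃ a : R, φ₀ a ≠ 0 ∧ ∀ (R' : Type u) [CommRing R'] [Algebra k R'] (φ : R →ₐ[k] R')
      (M' : GluedModule (𝒞.chart R')), IsUnit (φ a) → IsBC (𝒞.chartHom φ) M M' →
        ∃ s' : M'.N₁ × M'.N₂, InDivChart 𝒞 b h M' s' :=
  DIV.Spread.spread_main 𝒞 b h M hM hr κ φ₀ M₀ hM₀ s₀ hs₀

end Fermat.Agent.S25.ATLAS
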