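/-
S25 package ATLAS/DIV: assembly of `DivAtlas` from the leaves
BCfwd, BCback, LG, Spread, Chi, GoodMem, RigidCan, FinType (pure logic + BC stubs).
Captain helper6325.  No sorry of its own.
-/
import Fermat.Agent.S25.ATLAS.DIV.BCfwd
import Fermat.Agent.S25.ATLAS.DIV.BCback
import Fermat.Agent.S25.ATLAS.DIV.LG
import Fermat.Agent.S25.ATLAS.DIV.Spread
import Fermat.Agent.S25.ATLAS.DIV.Chi
import Fermat.Agent.S25.ATLAS.DIV.GoodMem
import Fermat.Agent.S25.ATLAS.DIV.RigidCan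
import Fermat.Agent.S25.ATLAS.DIV.FinType

set_option autoImplicit false

universe u

namespace Fermat.Agent.S25.ATLAS

open scoped TensorProduct

open GluedModule H2890 HC2928

variable {k : Type u} [Field k] (𝒞 : CurveData k)

/-- The zero ideal of a free generator of `H⁰` does not depend on the generator. -/
theorem zeroIdeal₁_eq_of_isCan {R : Type u} [CommRing R] [Algebra k R]
    (M : GluedModule (𝒞.chart R)) (s s' : M.N₁ × M.N₂) (hs : IsCan 𝒞 M s)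
    (hs' : IsCan 𝒞 M s') : zeroIdeal₁ 𝒞 M s = zeroIdeal₁ 𝒞 M s' := by
  obtain ⟨r, hr, -⟩ := hs.gen s' hs'.mem
  obtain ⟨r', hr', -⟩ := hs'.gen s hs.mem
  have hone : r * r' = 1 := by
    obtain ⟨r₀, -, huniq⟩ := hs'.gen s' hs'.mem
    have h1 : r * r' = r₀ := huniq _ (by
      change s' = (r * r') • s'
      rw [mul_smul, ← hr', ← hr])
    have h2 : (1 : R) = r₀ := huniq _ (by
      change s' = (1 : R) • s'
      rw [one_smul])
    rw [h1, ← h2]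
  have e1 : s'.1 = (algebraMap R (𝒞.chart R).B₁ r) • s.1 := by
    rw [hr, Prod.smul_fst, algebraMap_smul]
  have hu : IsUnit (algebraMap R (𝒞.chart R).B₁ r) :=
    (IsUnit.of_mul_eq_one r' hone).map _
  unfold zeroIdeal₁
  rw [e1]
  exact (zeroIdeal_unit_smul hu s.1).symm

/-- The point of a universal pair is the localisation map. -/
theorem UnivPair.point_eq {g : ℕ} {b : Fin g → 𝒞.A₁} {h : HilbChart k 𝒞.A₁ b}
    (U : UnivPair 𝒞 b h) :
    U.inDiv.point = IsScalarTower.toAlgHom k (HilbChart k 𝒞.A₁ b) (Localization.Away h) := by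
  unfold InDivChart.point
  rw [Equiv.symm_apply_eq]
  apply Subtype.ext
  change zeroIdeal₁ 𝒞 U.Q U.σ = (Datum.ofHom
    (IsScalarTower.toAlgHom k (HilbChart k 𝒞.A₁ b) (Localization.Away h))).ideal
  rw [U.zero₁, ideal_ofHom_eq_map]

variable [IsAlgClosed k]

/-- The universal pair of an index. -/
noncomputable def DivIndex.univ (j : DivIndex 𝒞) : UnivPair 𝒞 j.1 j.2.1 :=
  Classical.choice j.2.2

theorem inChart_iff_inDivChart (j : DivIndex 𝒞) {R : Type u} [CommRing R] [Algebra k R]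
    (M : GluedModule (𝒞.chart R)) (hM : M.IsLineBundle) :
    InChart 𝒞 (j.univ 𝒞).Q R M ↔ ∃ s : M.N₁ × M.N₂, InDivChart 𝒞 j.1 j.2.1 M s := by
  constructor
  · rintro ⟨ψ, hψ⟩
    obtain ⟨s, hs, -⟩ := exists_inDivChart_of_isBC 𝒞 (j.univ 𝒞).Q (j.univ 𝒞).lineBundle
      (j.univ 𝒞).σ (j.univ 𝒞).inDiv ψ M hψ
    exact ⟨s, hs⟩
  · rintro ⟨s, hs⟩
    exact exists_isBC_of_inDivChart 𝒞 (j.univ 𝒞) M hM s hs

/-- (DIV) The atlas of divisor charts, from the leaves. -/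
theorem divAtlas_of_leaves : Nonempty (DivAtlas 𝒞) := by
  refine ⟨{
    J := DivIndex 𝒞
    S := fun j => Localization.Away j.2.1
    finiteType := fun j => finiteType_away 𝒞 j.1 j.2.1
    Q := fun j => (j.univ 𝒞).Q
    Q_lineBundle := fun j => (j.univ 𝒞).lineBundle
    Q_rigid := fun j => rigid_of_isCan 𝒞 _ (j.univ 𝒞).lineBundle _ (j.univ 𝒞).inDiv.can
    Q_chi := ?_
    inj := ?_
    lg := ?_
    spread := ?_
    good_mem := ?_ }⟩
  · intro j κ _ _ _ φ N hN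
    obtain ⟨s, hs, -⟩ := exists_inDivChart_of_isBC 𝒞 (j.univ 𝒞).Q (j.univ 𝒞).lineBundle
      (j.univ 𝒞).σ (j.univ 𝒞).inDiv φ N hN
    exact chi_of_isCan 𝒞 κ N (isLineBundle_of_isBC 𝒞 φ _ N (j.univ 𝒞).lineBundle hN) s hs.can
  · intro j R _ _ φ ψ M hφ hψ
    obtain ⟨s, hs, hp⟩ := exists_inDivChart_of_isBC 𝒞 (j.univ 𝒞).Q (j.univ 𝒞).lineBundle
      (j.univ 𝒞).σ (j.univ 𝒞).inDiv φ M hφ
    obtain ⟨s', hs', hp'⟩ := exists_inDivChart_of_isBC 𝒞 (j.univ 𝒞).Q (j.univ 𝒞).lineBundle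
      (j.univ 𝒞).σ (j.univ 𝒞).inDiv ψ M hψ
    have hI := zeroIdeal₁_eq_of_isCan 𝒞 M s s' hs.can hs'.can
    have hpp : hs.point = hs'.point := by
      unfold InDivChart.point
      congr 1
      exact Subtype.ext hI
    rw [hp, hp', UnivPair.point_eq] at hpp
    have hring : (φ : Localization.Away j.2.1 →+* R) = (ψ : Localization.Away j.2.1 →+* R) := by
      apply IsLocalization.ringHom_ext (Submonoid.powers j.2.1)
      exact RingHom.ext fun x => congrArg (fun f : HilbChart k 𝒞.A₁ j.1 →ₐ[k] R => f x) hpp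
    exact AlgHom.ext fun x => congrArg (fun f : Localization.Away j.2.1 →+* R => f x) hring
  · intro j R _ _ M hM hMr H
    rw [inChart_iff_inDivChart 𝒞 j M hM]
    refine exists_inDivChart_of_fibres 𝒞 j.1 j.2.1 M hM hMr ?_
    intro κ _ _ _ φ M' hM'
    exact (inChart_iff_inDivChart 𝒞 j M' (isLineBundle_of_isBC 𝒞 φ M M' hM hM')).1
      (H κ φ M' hM')
  · intro j R _ _ M hM hMr κ _ _ _ φ₀ M₀ hM₀ hin
    obtain ⟨s₀, hs₀⟩ := (inChart_iff_inDivChart 𝒞 j M₀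
      (isLineBundle_of_isBC 𝒞 φ₀ M M₀ hM hM₀)).1 hin
    obtain ⟨a, ha, Ha⟩ := spread_inDivChart 𝒞 j.1 j.2.1 M hM hMr κ φ₀ M₀ hM₀ s₀ hs₀
    refine ⟨a, ha, fun R' _ _ φ M' hu hM' => ?_⟩
    exact (inChart_iff_inDivChart 𝒞 j M' (isLineBundle_of_isBC 𝒞 φ M M' hM hM')).2
      (Ha R' φ M' hu hM')
  · intro κ _ _ _ M hM hMr hg
    obtain ⟨b, h, U, s, hs⟩ := exists_univPair_of_good 𝒞 κ M hM hMr hg
    exact ⟨⟨b, ⟨h, ⟨U⟩⟩⟩, (inChart_iff_inDivChart 𝒞 ⟨b, ⟨h, ⟨U⟩⟩⟩ M hM).2 ⟨s, hs⟩⟩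

end Fermat.Agent.S25.ATLAS
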