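/-
S25 package ATLAS/DIV, leaf RigidCan.  Statement FROZEN (captain helper6325); proof by helper2951
(helper file `Fermat/Agent/S25/ATLAS/DIV/RigidCan/H2951.lean`, namespace
`Fermat.Agent.S25.ATLAS.DIV.RigidCan`).

(R) A line bundle with a canonical section is rigid: the ε-fibre is an invertible
R-module generated by the image of s₁ (`eps`), hence free of rank one.
-/
import Fermat.Agent.S25.ATLAS.DIV.Defs
import Fermat.Agent.S25.BC
import Fermat.Agent.S25.ATLAS.DIV.RigidCan.H2951

set_option autoImplicit false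

universe u

namespace Fermat.Agent.S25.ATLAS

open scoped TensorProduct

open GluedModule H2890 HC2928

variable {k : Type u} [Field k] (𝒞 : CurveData k) [IsAlgClosed k]

theorem rigid_of_isCan {R : Type u} [CommRing R] [Algebra k R] (M : GluedModule (𝒞.chart R))
    (hM : M.IsLineBundle) (s : M.N₁ × M.N₂) (hs : IsCan 𝒞 M s) : Rigid 𝒞 M := by
  haveI : Module.Invertible (𝒞.chart R).B₁ M.N₁ := hM.inv₁
  obtain ⟨e, he, hes⟩ := DIV.RigidCan.exists_semilinear_eval (𝒞.epsR R) s.1 hs.eps
  refine ⟨e, he, ?_⟩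
  intro Q _ _ h hh
  exact DIV.RigidCan.existsUnique_factor (𝒞.epsR R) s.1 hs.eps e he hes h hh

end Fermat.Agent.S25.ATLAS
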